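import Fermat.Agent.LT.Coef.Fam
import Fermat.Agent.LT.Psi.Trace

/-!
# The coefficients for the character of block B10
-/

set_option autoImplicit false
set_option linter.unusedSectionVars false

namespace Fermat.Agent.LT.Coef

open IsDedekindDomain NumberField WithZero
open Fermat.Agent.CFT.SUnits (ord ord_one ord_mul ord_inv ord_pow ord_div ord_eq_zero_iff
  valuation_eq_exp_neg_ord finite_ord_ne_zero div div_apply)
open Fermat.Agent.CFT.Places
open Fermat.Agent.CFT.Global (E mem_E above mem_above normU ClTrivial)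
open Fermat.Agent.LT.Psi
open Fermat.Agent.LT.B11

/-- `z ↦ i ^ z` as an additive character -/
noncomputable def chi4 : AddChar (ZMod 4) ℂ where
  toFun := ip
  map_zero_eq_one' := ip_zero
  map_add_eq_mul' := ip_add

@[simp] lemma chi4_apply (z : ZMod 4) : chi4 z = ip z := rfl

variable {F E' M : Type} [Field F] [NumberField F] [Field E'] [NumberField E'] [Field M]
  [NumberField M] [Algebra F E'] [Algebra E' M] [Algebra F M] [IsScalarTower F E' M]
  {S : Finset (HeightOneSpectrum (𝓞 F))} (T : TowerData F E' M S)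
  {ψ : HeightOneSpectrum (𝓞 E') → ZMod 4}
  (h1 : ∀ P : HeightOneSpectrum (𝓞 E'), P.under (𝓞 F) ∉ S → conj T.c P = P →
    ip (ψ P) = -1 ∧ T.xw (P.under (𝓞 F)) = 0)
  (h3 : ∀ P : HeightOneSpectrum (𝓞 E'), P.under (𝓞 F) ∉ S → conj T.c P ≠ P →
    ip (ψ P) * ip (ψ (conj T.c P)) = 1 ∧
    ip (ψ P) + ip (ψ (conj T.c P)) = T.xw (P.under (𝓞 F)))

include h1 h3 in
/-- the local parameters are the traces -/
lemma xv_eq_xw {v : HeightOneSpectrum (𝓞 F)} (hv : v ∉ S) :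
    xv chi4 T.c ψ v = (T.xw v : ℂ) := by
  have hv' : (rep E' v).under (𝓞 F) ∉ S := by rwa [rep_under]
  rw [xv]
  split_ifs with h
  · rw [← rep_under (L := E') v, (h1 _ hv' h).2, Int.cast_zero]
  · rw [chi4_apply, chi4_apply, (h3 _ hv' h).2, rep_under]

lemma lam_congr_x {K : Type*} [Field K] [NumberField K] {S : Finset (HeightOneSpectrum (𝓞 K))}
    {x y : HeightOneSpectrum (𝓞 K) → ℂ} (h : ∀ v ∉ S, x v = y v) (ξ : Kˣ) :
    lam S x ξ = lam S y ξ := by
  classical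
  unfold lam
  refine Finsupp.prod_congr fun v _ => ?_
  split_ifs with hv
  · rfl
  · rw [h v hv]

variable {n : ℕ} (hP : PsiChar S T.c T.a n ψ) {X : Type*} (D : Dat E'ˣ Fˣ X)
  (hq : D.q = normU E') (hOp : ∀ x, x ∈ D.Op ↔ ∀ w ∉ above E' S, 0 ≤ ord w x)
  (hEA : D.EA = E (above E' S)) (hEB : D.EB = E S)
  (hψ : ∀ x, D.ψ x = ip (rayVal (above E' S) ψ x).toAdd)

include hP hq hOp hEA hEB hψ in
/-- **The coefficients of the theta family**, unconditionally. -/
theorem lam_eq_of_tower : (∀ ξ, D.lam ξ = lam S (xv chi4 T.c ψ) ξ) := by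
  have := T.galois_FE
  intro ξ
  refine Dat_lam_eq T.finrank_FE T.c_ne_one T.cl_E (fun w hw => T.unr_FE w
    (fun h => hw ((mem_above E').mpr h))) chi4 ψ ?_ ?_ D hq hOp hEA hEB hψ ξ
  · intro w hw hc
    exact hP.split w (fun h => hw ((mem_above E').mpr h)) hc
  · intro w hw hc
    rw [hP.inert w (fun h => hw ((mem_above E').mpr h)) hc, chi4_apply, ip_two]

include hP hq hOp hEA hEB hψ h1 h3 in
theorem lam_eq_xw (ξ : Fˣ) : D.lam ξ = lam S (fun v => (T.xw v : ℂ)) ξ := by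
  rw [lam_eq_of_tower T hP D hq hOp hEA hEB hψ]
  exact lam_congr_x (fun v hv => xv_eq_xw T h1 h3 hv) ξ

include hP hq hOp hEA hEB hψ h1 h3 in
/-- **Hecke relation for the coefficients of the theta family.** -/
theorem hecke_xw {w : HeightOneSpectrum (𝓞 F)} (hw : w ∉ S) {π : Fˣ} (hπ : ord w π = 1)
    (hπ' : ∀ v ∉ S, v ≠ w → ord v π = 0) {ξ : Fˣ} (hξ : 0 ≤ ord w ξ) :
    D.lam (π * ξ) + D.lam (ξ / π) = (T.xw w : ℂ) * D.lam ξ := by
  simp only [lam_eq_xw T h1 h3 hP D hq hOp hEA hEB hψ]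
  exact lam_hecke hw hπ hπ' hξ

include hP hq hOp hEA hEB hψ in
theorem lam_one_of_tower : D.lam 1 = 1 := by
  rw [lam_eq_of_tower T hP D hq hOp hEA hEB hψ, lam_one]

include hP hq hOp hEA hEB hψ in
theorem lam_of_not_integral {ξ : Fˣ} {v : HeightOneSpectrum (𝓞 F)} (hv : v ∉ S)
    (h : ord v ξ < 0) : D.lam ξ = 0 := by
  rw [lam_eq_of_tower T hP D hq hOp hEA hEB hψ, lam_eq_zero hv h]

include hP hq hOp hEA hEB hψ in
theorem lam_unit {u : Fˣ} (hu : u ∈ E S) (ξ : Fˣ) : D.lam (u * ξ) = D.lam ξ := by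
  rw [lam_eq_of_tower T hP D hq hOp hEA hEB hψ, lam_eq_of_tower T hP D hq hOp hEA hEB hψ,
    lam_unit_mul hu]

include hP hq hOp hEA hEB hψ in
/-- **Mass bound for the theta family.** -/
theorem mass_of_tower (hVB : ∀ b ∈ D.VB, ∀ v ∈ S, ord v b = 0) (δ : Fˣ) :
    ∃ C : ℝ, 0 ≤ C ∧ ∀ a : Fˣ, a * δ ∈ D.VB → ∀ s : Finset D.Idx, (∀ p ∈ s, D.xi p = a) →
      ∑ p ∈ s, ‖D.cf p‖ ≤ C * ∏ w : InfinitePlace F, (w (a : F)) ^ w.mult := by
  have := T.galois_FE
  refine Dat_mass T.finrank_FE T.c_ne_one T.cl_E (fun w hw => T.unr_FE w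
    (fun h => hw ((mem_above E').mpr h))) chi4 ψ ?_ ?_ D hq hOp hEA hEB hψ
    (fun a => by rw [chi4_apply, norm_ip]) hVB δ
  · intro w hw hc
    exact hP.split w (fun h => hw ((mem_above E').mpr h)) hc
  · intro w hw hc
    rw [hP.inert w (fun h => hw ((mem_above E').mpr h)) hc, chi4_apply, ip_two]

end Fermat.Agent.LT.Coef
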