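import Fermat.Agent.LT.Coef.Cheb
import Fermat.Agent.LT.Psi.Quad

/-!
# The multiplicative function `lam` on `Kˣ` attached to local numbers `x v`
-/

set_option autoImplicit false

namespace Fermat.Agent.LT.Coef

open IsDedekindDomain NumberField WithZero
open Fermat.Agent.CFT.SUnits (ord ord_one ord_mul ord_inv ord_pow ord_div ord_eq_zero_iff
  valuation_eq_exp_neg_ord finite_ord_ne_zero div div_apply)
open Fermat.Agent.CFT.Global (E mem_E)

variable {K : Type*} [Field K] [NumberField K]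

open Classical in
/-- `lam ξ = ∏_{v ∉ S} ch (x v) (ord_v ξ)` (zero if some `ord_v ξ < 0`) -/
noncomputable def lam (S : Finset (HeightOneSpectrum (𝓞 K))) (x : HeightOneSpectrum (𝓞 K) → ℂ)
    (ξ : Kˣ) : ℂ :=
  (div ξ : HeightOneSpectrum (𝓞 K) →₀ ℤ).prod fun v n => if v ∈ S then 1 else chZ (x v) n

open Classical in
lemma lam_eq_prod (S T : Finset (HeightOneSpectrum (𝓞 K))) (x : HeightOneSpectrum (𝓞 K) → ℂ)
    (ξ : Kˣ) (hT : ∀ v ∉ T, v ∉ S → ord v ξ = 0) :
    lam S x ξ = ∏ v ∈ T, if v ∈ S then 1 else chZ (x v) (ord v ξ) := by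
  have h1 : ∏ v ∈ (div ξ : HeightOneSpectrum (𝓞 K) →₀ ℤ).support,
      (if v ∈ S then (1 : ℂ) else chZ (x v) (div ξ v)) =
      ∏ v ∈ (div ξ : HeightOneSpectrum (𝓞 K) →₀ ℤ).support ∪ T,
        (if v ∈ S then (1 : ℂ) else chZ (x v) (div ξ v)) := by
    refine Finset.prod_subset Finset.subset_union_left fun v _ hv => ?_
    rw [Finsupp.notMem_support_iff] at hv
    rw [hv, chZ_zero, ite_self]
  have h2 : ∏ v ∈ T, (if v ∈ S then (1 : ℂ) else chZ (x v) (ord v ξ)) =
      ∏ v ∈ (div ξ : HeightOneSpectrum (𝓞 K) →₀ ℤ).support ∪ T,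
        (if v ∈ S then (1 : ℂ) else chZ (x v) (ord v ξ)) := by
    refine Finset.prod_subset Finset.subset_union_right fun v _ hv => ?_
    split_ifs with hS
    · rfl
    · rw [hT v hv hS, chZ_zero]
  rw [lam, Finsupp.prod, h1, h2]
  rfl

variable {S : Finset (HeightOneSpectrum (𝓞 K))} {x : HeightOneSpectrum (𝓞 K) → ℂ}

@[simp] lemma lam_one : lam S x 1 = 1 := by
  classical
  rw [lam_eq_prod S ∅ x 1 (fun v _ _ => ord_one K v), Finset.prod_empty]

lemma lam_congr {ξ η : Kˣ} (h : ∀ v ∉ S, ord v ξ = ord v η) : lam S x ξ = lam S x η := by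
  classical
  rw [lam_eq_prod S ((div ξ : HeightOneSpectrum (𝓞 K) →₀ ℤ).support) x ξ,
    lam_eq_prod S ((div ξ : HeightOneSpectrum (𝓞 K) →₀ ℤ).support) x η]
  · refine Finset.prod_congr rfl fun v _ => ?_
    split_ifs with hv
    · rfl
    · rw [h v hv]
  · intro v hv hvS
    rw [Finsupp.notMem_support_iff, div_apply] at hv
    rw [← h v hvS, hv]
  · intro v hv hvS
    rwa [Finsupp.notMem_support_iff, div_apply] at hv

lemma lam_unit_mul {u : Kˣ} (hu : u ∈ E S) (ξ : Kˣ) : lam S x (u * ξ) = lam S x ξ :=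
  lam_congr fun v hv => by rw [ord_mul, mem_E.mp hu v hv, zero_add]

lemma lam_eq_zero {ξ : Kˣ} {v : HeightOneSpectrum (𝓞 K)} (hv : v ∉ S) (h : ord v ξ < 0) :
    lam S x ξ = 0 := by
  classical
  rw [lam, Finsupp.prod]
  refine Finset.prod_eq_zero (i := v) ?_ ?_
  · rw [Finsupp.mem_support_iff, div_apply]
    omega
  · rw [if_neg hv, div_apply, chZ_of_neg _ h]

/-- **The Hecke relation** for the coefficients: `π` a generator of the prime `w`. -/
theorem lam_hecke {w : HeightOneSpectrum (𝓞 K)} (hw : w ∉ S) {π : Kˣ} (hπ : ord w π = 1)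
    (hπ' : ∀ v ∉ S, v ≠ w → ord v π = 0) {ξ : Kˣ} (hξ : 0 ≤ ord w ξ) :
    lam S x (π * ξ) + lam S x (ξ / π) = x w * lam S x ξ := by
  classical
  set T : Finset (HeightOneSpectrum (𝓞 K)) :=
    insert w (div ξ : HeightOneSpectrum (𝓞 K) →₀ ℤ).support with hT
  have hwT : w ∈ T := Finset.mem_insert_self _ _
  have h0 : ∀ v ∉ T, v ≠ w ∧ ord v ξ = 0 := by
    intro v hv
    rw [hT, Finset.mem_insert, not_or, Finsupp.notMem_support_iff, div_apply] at hv
    exact hv
  rw [lam_eq_prod S T x ξ (fun v hv _ => (h0 v hv).2),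
    lam_eq_prod S T x (π * ξ) (fun v hv hvS => by
      rw [ord_mul, (h0 v hv).2, hπ' v hvS (h0 v hv).1, add_zero]),
    lam_eq_prod S T x (ξ / π) (fun v hv hvS => by
      rw [ord_div, (h0 v hv).2, hπ' v hvS (h0 v hv).1, sub_zero]),
    ← Finset.mul_prod_erase T _ hwT, ← Finset.mul_prod_erase T _ hwT,
    ← Finset.mul_prod_erase T _ hwT]
  have h1 : ∏ v ∈ T.erase w, (if v ∈ S then (1 : ℂ) else chZ (x v) (ord v (π * ξ))) =
      ∏ v ∈ T.erase w, (if v ∈ S then (1 : ℂ) else chZ (x v) (ord v ξ)) := by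
    refine Finset.prod_congr rfl fun v hv => ?_
    split_ifs with hvS
    · rfl
    · rw [ord_mul, hπ' v hvS (Finset.ne_of_mem_erase hv), zero_add]
  have h2 : ∏ v ∈ T.erase w, (if v ∈ S then (1 : ℂ) else chZ (x v) (ord v (ξ / π))) =
      ∏ v ∈ T.erase w, (if v ∈ S then (1 : ℂ) else chZ (x v) (ord v ξ)) := by
    refine Finset.prod_congr rfl fun v hv => ?_
    split_ifs with hvS
    · rfl
    · rw [ord_div, hπ' v hvS (Finset.ne_of_mem_erase hv), sub_zero]
  rw [h1, h2, if_neg hw, if_neg hw, if_neg hw, ord_mul, ord_div, hπ, ← mul_assoc,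
    ← chZ_add_one_add_sub_one (x w) hξ, add_comm 1 (ord w ξ)]
  ring

/-- multiplicativity on coprime elements -/
theorem lam_mul {ξ η : Kˣ} (h : ∀ v ∉ S, ord v ξ = 0 ∨ ord v η = 0) :
    lam S x (ξ * η) = lam S x ξ * lam S x η := by
  classical
  set T : Finset (HeightOneSpectrum (𝓞 K)) :=
    (div ξ : HeightOneSpectrum (𝓞 K) →₀ ℤ).support ∪
      (div η : HeightOneSpectrum (𝓞 K) →₀ ℤ).support with hT
  have h0 : ∀ v ∉ T, ord v ξ = 0 ∧ ord v η = 0 := by
    intro v hv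
    rw [hT, Finset.mem_union, not_or, Finsupp.notMem_support_iff, Finsupp.notMem_support_iff,
      div_apply, div_apply] at hv
    exact hv
  rw [lam_eq_prod S T x ξ (fun v hv _ => (h0 v hv).1),
    lam_eq_prod S T x η (fun v hv _ => (h0 v hv).2),
    lam_eq_prod S T x (ξ * η) (fun v hv _ => by
      rw [ord_mul, (h0 v hv).1, (h0 v hv).2, add_zero]), ← Finset.prod_mul_distrib]
  refine Finset.prod_congr rfl fun v _ => ?_
  split_ifs with hvS
  · rw [one_mul]
  · rw [ord_mul]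
    rcases h v hvS with h' | h'
    · rw [h', zero_add, chZ_zero, one_mul]
    · rw [h', add_zero, chZ_zero, mul_one]

end Fermat.Agent.LT.Coef
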