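import Fermat.Agent.LT.Coef.Lam
import Mathlib.NumberTheory.NumberField.ProductFormula

/-!
# The bound for `lam`
-/

set_option autoImplicit false
set_option linter.unusedSectionVars false

namespace Fermat.Agent.LT.Coef

open IsDedekindDomain NumberField WithZero
open Fermat.Agent.CFT.SUnits (ord ord_one ord_mul ord_inv ord_pow ord_div ord_eq_zero_iff
  valuation_eq_exp_neg_ord finite_ord_ne_zero div div_apply)
open Fermat.Agent.CFT.Global (E mem_E)

variable {K : Type*} [Field K] [NumberField K]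

lemma norm_embedding_eq_zpow (v : HeightOneSpectrum (𝓞 K)) (x : Kˣ) :
    ‖FinitePlace.embedding v (x : K)‖ = ((v.asIdeal.absNorm : ℝ) ^ (ord v x))⁻¹ := by
  rw [FinitePlace.norm_embedding', valuation_eq_exp_neg_ord,
    WithZeroMulInt.toNNReal_neg_apply _ exp_ne_zero]
  push_cast
  rw [← zpow_neg]
  rfl

/-- the absolute norm as a product over the finite places -/
theorem abs_norm_eq_prod {x : Kˣ} {T : Finset (HeightOneSpectrum (𝓞 K))}
    (hT : ∀ v ∉ T, ord v x = 0) :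
    ((|Algebra.norm ℚ (x : K)| : ℚ) : ℝ) = ∏ v ∈ T, (v.asIdeal.absNorm : ℝ) ^ (ord v x) := by
  have h := FinitePlace.prod_eq_inv_abs_norm (K := K) x.ne_zero
  rw [← finprod_comp_equiv FinitePlace.equivHeightOneSpectrum.symm] at h
  simp only [FinitePlace.equivHeightOneSpectrum_symm_apply, norm_embedding_eq_zpow] at h
  rw [finprod_eq_prod_of_mulSupport_subset (s := T), Finset.prod_inv_distrib, Rat.cast_inv] at h
  · exact (inv_injective h).symm
  · intro v hv
    by_contra hcon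
    rw [Finset.mem_coe] at hcon
    rw [Function.mem_mulSupport, hT v hcon, zpow_zero, inv_one] at hv
    exact hv rfl

lemma two_le_absNorm (v : HeightOneSpectrum (𝓞 K)) : (2 : ℝ) ≤ (v.asIdeal.absNorm : ℝ) := by
  have h1 : 1 < v.asIdeal.absNorm := NumberField.HeightOneSpectrum.one_lt_absNorm v
  exact_mod_cast h1

/-- `n + 1 ≤ q ^ n` -/
lemma norm_chZ_le {x : ℂ} (hx : x = 0 ∨ ∃ z : ℂ, ‖z‖ = 1 ∧ x = z + z⁻¹) {q : ℝ} (hq : 2 ≤ q)
    (n : ℤ) : ‖chZ x n‖ ≤ q ^ n := by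
  by_cases hn : 0 ≤ n
  · obtain ⟨k, rfl⟩ := Int.eq_ofNat_of_zero_le hn
    rw [chZ_natCast, zpow_natCast]
    have h1 : ((k : ℝ) + 1) ≤ q ^ k := by
      have h2 : ((k : ℝ) + 1) ≤ 2 ^ k := by
        have := Nat.lt_two_pow_self (n := k)
        exact_mod_cast this
      exact h2.trans (pow_le_pow_left₀ (by norm_num) hq k)
    rcases hx with rfl | ⟨z, hz, rfl⟩
    · refine (norm_chN_zero_le k).trans (le_trans ?_ h1)
      have : (0 : ℝ) ≤ k := Nat.cast_nonneg k
      linarith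
    · exact (norm_chN_le hz k).trans h1
  · rw [chZ_of_neg _ (by omega), norm_zero]
    have : (0 : ℝ) < q := by linarith
    positivity

/-- **The bound.** -/
theorem norm_lam_le {S : Finset (HeightOneSpectrum (𝓞 K))} {x : HeightOneSpectrum (𝓞 K) → ℂ}
    (hx : ∀ v ∉ S, x v = 0 ∨ ∃ z : ℂ, ‖z‖ = 1 ∧ x v = z + z⁻¹) (ξ : Kˣ) :
    ‖lam S x ξ‖ ≤ ((|Algebra.norm ℚ (ξ : K)| : ℚ) : ℝ) *
      ∏ v ∈ S, (v.asIdeal.absNorm : ℝ) ^ (-ord v ξ) := by
  classical
  set T : Finset (HeightOneSpectrum (𝓞 K)) :=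
    (div ξ : HeightOneSpectrum (𝓞 K) →₀ ℤ).support ∪ S with hT
  have h0 : ∀ v ∉ T, ord v ξ = 0 := by
    intro v hv
    rw [hT, Finset.mem_union, not_or, Finsupp.notMem_support_iff, div_apply] at hv
    exact hv.1
  rw [abs_norm_eq_prod h0, lam_eq_prod S T x ξ (fun v hv _ => h0 v hv), norm_prod]
  have h1 : ∏ v ∈ S, (v.asIdeal.absNorm : ℝ) ^ (-ord v ξ) =
      ∏ v ∈ T, if v ∈ S then (v.asIdeal.absNorm : ℝ) ^ (-ord v ξ) else 1 := by
    rw [Finset.prod_ite_mem]
    congr 1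
    rw [Finset.inter_eq_right.mpr]
    exact Finset.subset_union_right
  rw [h1, ← Finset.prod_mul_distrib]
  refine Finset.prod_le_prod (fun v _ => norm_nonneg _) fun v _ => ?_
  have hq := two_le_absNorm v
  split_ifs with hv
  · have h2 : (v.asIdeal.absNorm : ℝ) ≠ 0 := by linarith
    rw [norm_one, ← zpow_add₀ h2, add_neg_cancel, zpow_zero]
  · rw [mul_one]
    exact norm_chZ_le (hx v hv) hq _

end Fermat.Agent.LT.Coef
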