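import Mathlib.Analysis.Complex.Basic
import Mathlib.Algebra.BigOperators.Intervals
import Mathlib.Tactic

/-!
# Local coefficients: Chebyshev numbers
-/

set_option autoImplicit false

namespace Fermat.Agent.LT.Coef

open Finset

/-- `ch x k = (z ^ (k+1) - z ^ (-k-1)) / (z - z⁻¹)` for `x = z + z⁻¹` -/
def chN (x : ℂ) : ℕ → ℂ
  | 0 => 1
  | 1 => x
  | (k + 2) => x * chN x (k + 1) - chN x k

@[simp] lemma chN_zero (x : ℂ) : chN x 0 = 1 := rfl
@[simp] lemma chN_one (x : ℂ) : chN x 1 = x := rfl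
lemma chN_add_two (x : ℂ) (k : ℕ) : chN x (k + 2) = x * chN x (k + 1) - chN x k := rfl

/-- extended by zero to negative integers -/
def chZ (x : ℂ) (n : ℤ) : ℂ := if 0 ≤ n then chN x n.toNat else 0

@[simp] lemma chZ_zero (x : ℂ) : chZ x 0 = 1 := by simp [chZ]
@[simp] lemma chZ_one (x : ℂ) : chZ x 1 = x := by simp [chZ]
lemma chZ_natCast (x : ℂ) (n : ℕ) : chZ x n = chN x n := by simp [chZ]
lemma chZ_of_neg (x : ℂ) {n : ℤ} (h : n < 0) : chZ x n = 0 := by
  rw [chZ, if_neg (by omega)]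

/-- the Hecke relation -/
lemma chZ_add_one_add_sub_one (x : ℂ) {n : ℤ} (hn : 0 ≤ n) :
    chZ x (n + 1) + chZ x (n - 1) = x * chZ x n := by
  obtain ⟨k, rfl⟩ := Int.eq_ofNat_of_zero_le hn
  cases k with
  | zero =>
    have : ((0 : ℕ) : ℤ) - 1 < 0 := by norm_num
    rw [chZ_of_neg x this]
    simp
  | succ k =>
    have e1 : ((k + 1 : ℕ) : ℤ) + 1 = ((k + 2 : ℕ) : ℤ) := by push_cast; ring
    have e2 : ((k + 1 : ℕ) : ℤ) - 1 = (k : ℕ) := by push_cast; ring
    rw [e1, e2, chZ_natCast, chZ_natCast, chZ_natCast, chN_add_two]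
    ring

/-- the split case -/
lemma sum_split {z : ℂ} (hz : z ≠ 0) (n : ℕ) :
    ∑ k ∈ range (n + 1), z ^ (2 * (k : ℤ) - n) = chN (z + z⁻¹) n := by
  induction n using Nat.strong_induction_on with
  | _ n ih =>
    match n, ih with
    | 0, _ => simp
    | 1, _ =>
      rw [sum_range_succ, sum_range_one]
      simp only [Nat.cast_zero, mul_zero, Nat.cast_one, mul_one, chN_one]
      norm_num
      ring
    | n + 2, ih =>
      have h1 := ih (n + 1) (by omega)
      have h0 := ih n (by omega)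
      rw [chN_add_two, ← h1, ← h0, add_mul, mul_sum, mul_sum]
      have e1 : ∀ k : ℕ, z * z ^ (2 * (k : ℤ) - (n + 1 : ℕ)) = z ^ (2 * (k : ℤ) - n) := by
        intro k
        rw [← zpow_one_add₀ hz]
        congr 1
        push_cast
        ring
      have e2 : ∀ k : ℕ, z⁻¹ * z ^ (2 * (k : ℤ) - (n + 1 : ℕ)) =
          z ^ (2 * (k : ℤ) - (n + 2 : ℕ)) := by
        intro k
        rw [← zpow_neg_one, ← zpow_add₀ hz]
        congr 1
        push_cast
        ring
      rw [sum_congr rfl fun k _ => e1 k, sum_congr rfl fun k _ => e2 k]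
      rw [sum_range_succ _ (n + 2), sum_range_succ (fun k : ℕ => z ^ (2 * (k : ℤ) - n)) (n + 1)]
      have e3 : (2 * ((n + 2 : ℕ) : ℤ) - ((n + 2 : ℕ) : ℤ)) = 2 * ((n + 1 : ℕ) : ℤ) - n := by
        push_cast
        ring
      rw [e3]
      ring

/-- the inert case -/
lemma sum_inert (n : ℕ) :
    ∑ k ∈ (range (n + 1)).filter (fun k => 2 * k = n), (-1 : ℂ) ^ k = chN 0 n := by
  have h : ∀ n : ℕ, chN 0 (2 * n) = (-1) ^ n ∧ chN 0 (2 * n + 1) = 0 := by
    intro n
    induction n with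
    | zero => simp
    | succ n ih =>
      have e1 : 2 * (n + 1) = 2 * n + 2 := by ring
      have e2 : 2 * (n + 1) + 1 = (2 * n + 1) + 2 := by ring
      constructor
      · rw [e1, chN_add_two, ih.1, pow_succ]
        ring
      · rw [e2, chN_add_two, ih.2]
        ring
  rcases Nat.even_or_odd' n with ⟨m, rfl | rfl⟩
  · rw [(h m).1]
    have : (range (2 * m + 1)).filter (fun k => 2 * k = 2 * m) = {m} := by
      ext k
      simp only [mem_filter, mem_range, mem_singleton]
      omega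
    rw [this, sum_singleton]
  · rw [(h m).2]
    have : (range (2 * m + 1 + 1)).filter (fun k => 2 * k = 2 * m + 1) = ∅ := by
      ext k
      simp only [mem_filter, mem_range, notMem_empty, iff_false]
      omega
    rw [this, sum_empty]

lemma norm_chN_le {z : ℂ} (hz : ‖z‖ = 1) (n : ℕ) : ‖chN (z + z⁻¹) n‖ ≤ n + 1 := by
  have hz0 : z ≠ 0 := by
    rintro rfl
    simp at hz
  rw [← sum_split hz0]
  refine (norm_sum_le _ _).trans ?_
  have : ∀ k ∈ range (n + 1), ‖z ^ (2 * (k : ℤ) - n)‖ ≤ 1 := by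
    intro k _
    rw [norm_zpow, hz, one_zpow]
  refine (sum_le_sum this).trans ?_
  simp

lemma norm_chN_zero_le (n : ℕ) : ‖chN 0 n‖ ≤ 1 := by
  rw [← sum_inert]
  refine (norm_sum_le _ _).trans ?_
  have : ∀ k ∈ (range (n + 1)).filter (fun k => 2 * k = n), ‖(-1 : ℂ) ^ k‖ ≤ 1 := by
    intro k _
    rw [norm_pow, norm_neg, norm_one, one_pow]
  refine (sum_le_sum this).trans ?_
  rw [sum_const, nsmul_eq_mul, mul_one]
  have : ((range (n + 1)).filter (fun k => 2 * k = n)).card ≤ 1 := by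
    rw [card_le_one]
    intro a ha b hb
    simp only [mem_filter, mem_range] at ha hb
    omega
  exact_mod_cast this

end Fermat.Agent.LT.Coef
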