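import Fermat.Agent.LT.Coef.Main
import Fermat.Agent.LT.Coef.Bound
import Fermat.Agent.LT.B11.Fam

/-!
# The coefficients of the family `B11.Dat.FF`
-/

set_option autoImplicit false
set_option linter.unusedSectionVars false

namespace Fermat.Agent.LT.Coef

open IsDedekindDomain NumberField WithZero
open Fermat.Agent.CFT.SUnits (ord ord_one ord_mul ord_inv ord_pow ord_div ord_eq_zero_iff
  valuation_eq_exp_neg_ord finite_ord_ne_zero div div_apply)
open Fermat.Agent.CFT.Places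
open Fermat.Agent.CFT.Global (E mem_E above mem_above normU ClTrivial)
open Fermat.Agent.LT.Psi
open Fermat.Agent.LT.B11

variable {K L X : Type*} [Field K] [NumberField K] [Field L] [NumberField L] [Algebra K L]
  [IsGalois K L] (h2 : Module.finrank K L = 2) {σ : L ≃ₐ[K] L} (hσ : σ ≠ 1)
  {S : Finset (HeightOneSpectrum (𝓞 K))} (hClL : ClTrivial (above L S))
  (he : ∀ w : HeightOneSpectrum (𝓞 L), w ∉ above L S →
    (w.under (𝓞 K)).asIdeal.ramificationIdx' w.asIdeal = 1)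
  {A : Type*} [AddCommGroup A] (χ : AddChar A ℂ) (ψ : HeightOneSpectrum (𝓞 L) → A)
  (hψ1 : ∀ w ∉ above L S, conj σ w ≠ w → ψ w + ψ (conj σ w) = 0)
  (hψ2 : ∀ w ∉ above L S, conj σ w = w → χ (ψ w) = -1)
  (D : Dat Lˣ Kˣ X) (hq : D.q = normU L)
  (hOp : ∀ x, x ∈ D.Op ↔ ∀ w ∉ above L S, 0 ≤ ord w x)
  (hEA : D.EA = E (above L S)) (hEB : D.EB = E S)
  (hψ : ∀ x, D.ψ x = χ (rayVal (above L S) ψ x).toAdd)

/-- the representatives over `ξ` -/
abbrev Fib (D : Dat Lˣ Kˣ X) (ξ : Kˣ) : Type _ := {p : D.Idx // D.xi p = ξ ∧ p.2.out ∈ D.Op}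

include hq in
lemma norm_out {p : D.Idx} {ξ : Kˣ} (h : D.xi p = ξ) :
    normU L p.2.out = ((p.1.out : D.EB) : Kˣ) * ξ := by
  rw [← h, Dat.xi, hq, mul_comm, inv_mul_cancel_right]

include hq hOp hEB in
lemma good_out {ξ : Kˣ} (p : Fib D ξ) : Good S ξ p.1.2.out := by
  refine ⟨(hOp _).mp p.2.2, ?_⟩
  rw [norm_out D hq p.2.1, mul_div_cancel_right, ← hEB]
  exact (p.1.1.out : D.EB).2

include hq hOp hEA hEB in
lemma existsUnique_fib {ξ : Kˣ} {x : Lˣ} (hx : Good S ξ x) :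
    ∃! p : Fib D ξ, x / p.1.2.out ∈ E (above L S) := by
  have hu : normU L x / ξ ∈ D.EB := by
    rw [hEB]
    exact hx.2
  set u : D.EB := ⟨normU L x / ξ, hu⟩ with hu'
  set c₁ : D.EB ⧸ D.QE := QuotientGroup.mk u with hc₁
  have h1 : (QuotientGroup.mk c₁.out : D.EB ⧸ D.QE) = QuotientGroup.mk u :=
    QuotientGroup.out_eq' _
  rw [QuotientGroup.eq] at h1
  obtain ⟨e, he1, he2⟩ := Subgroup.mem_map.mp (Subgroup.mem_subgroupOf.mp h1)
  rw [hq] at he2
  have he3 : normU L e = ((c₁.out : D.EB) : Kˣ)⁻¹ * (normU L x / ξ) := by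
    rw [he2]
    rfl
  set x' : Lˣ := x / e with hx'
  have hNx' : normU L x' = ((c₁.out : D.EB) : Kˣ) * ξ := by
    rw [hx', _root_.map_div, he3]
    rw [div_eq_mul_inv, mul_inv_rev, inv_inv, inv_div, mul_comm, mul_assoc, mul_comm _ (normU L x),
      ← mul_assoc, div_mul_cancel, mul_comm]
  set c₂ : Lˣ ⧸ D.U := QuotientGroup.mk x' with hc₂
  have h3 : (QuotientGroup.mk c₂.out : Lˣ ⧸ D.U) = QuotientGroup.mk x' :=
    QuotientGroup.out_eq' _
  rw [QuotientGroup.eq] at h3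
  have h4 : normU (K := K) L c₂.out = normU L x' := by
    have := D.q_U h3
    rw [hq, map_mul, map_inv, inv_mul_eq_one] at this
    exact this
  have h5 : x / c₂.out ∈ E (above L S) := by
    have h6 : x / c₂.out = e * (c₂.out⁻¹ * x') := by
      rw [hx', div_eq_mul_inv, div_eq_mul_inv, mul_comm x e⁻¹, mul_left_comm c₂.out⁻¹,
        ← mul_assoc e, mul_inv_cancel, one_mul, mul_comm]
    rw [h6, ← hEA]
    exact mul_mem he1 (Subgroup.mem_inf.mp h3).1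
  have h6 : c₂.out ∈ D.Op := by
    rw [hOp]
    intro w hw
    have h7 := mem_E.mp h5 w hw
    rw [ord_div] at h7
    have h8 := hx.1 w hw
    omega
  have h7 : D.xi (c₁, c₂) = ξ := by
    rw [Dat.xi, hq]
    change normU L c₂.out * ((c₁.out : D.EB) : Kˣ)⁻¹ = ξ
    rw [h4, hNx', mul_comm, inv_mul_cancel_left]
  refine ⟨⟨(c₁, c₂), h7, h6⟩, h5, ?_⟩
  rintro ⟨⟨d₁, d₂⟩, hd, hdO⟩ hdx
  change x / d₂.out ∈ E (above L S) at hdx
  have h8 : normU L d₂.out = ((d₁.out : D.EB) : Kˣ) * ξ := norm_out D hq hd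
  have h9 : d₁ = c₁ := by
    rw [hc₁, ← QuotientGroup.out_eq' d₁, QuotientGroup.eq]
    change _ ∈ (D.EA.map D.q).subgroupOf D.EB
    rw [Subgroup.mem_subgroupOf, Subgroup.mem_map]
    refine ⟨x / d₂.out, by rw [hEA]; exact hdx, ?_⟩
    rw [hq, _root_.map_div, h8]
    change _ = ((d₁.out : D.EB) : Kˣ)⁻¹ * (normU L x / ξ)
    rw [div_mul_eq_div_div_swap, div_eq_mul_inv (normU L x / ξ), mul_comm]
  subst h9
  have h10 : d₂ = c₂ := by
    rw [hc₂, ← QuotientGroup.out_eq' d₂, QuotientGroup.eq]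
    refine Subgroup.mem_inf.mpr ⟨?_, ?_⟩
    · rw [hEA]
      have h11 : d₂.out⁻¹ * x' = (x / d₂.out) * e⁻¹ := by
        rw [hx', div_eq_mul_inv, div_eq_mul_inv, mul_comm x d₂.out⁻¹, mul_assoc]
      rw [h11]
      refine mul_mem hdx (inv_mem ?_)
      rw [← hEA]
      exact he1
    · rw [MonoidHom.mem_ker, hq, map_mul, map_inv, h8, hNx', inv_mul_cancel]
  subst h10
  rfl

include h2 hσ hClL he hψ1 hψ2 hq hOp hEA hEB hψ in
/-- **The coefficients of the family.** -/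
theorem Dat_lam_eq (ξ : Kˣ) : D.lam ξ = lam S (xv χ σ ψ) ξ := by
  classical
  obtain ⟨-, -, h⟩ := hasSum_of_reps h2 hσ hClL he χ ψ hψ1 hψ2 (fun p : Fib D ξ => p.1.2.out)
    (good_out D hq hOp hEB) (fun x hx => existsUnique_fib D hq hOp hEA hEB hx)
  rw [← h.tsum_eq]
  unfold Dat.lam
  refine (tsum_subtype {p : D.Idx | D.xi p = ξ} D.cf).trans (Eq.symm ?_)
  refine (tsum_subtype {p : D.Idx | D.xi p = ξ ∧ p.2.out ∈ D.Op}
    (fun p : D.Idx => χ (rayVal (above L S) ψ p.2.out).toAdd)).trans ?_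
  refine tsum_congr fun p => ?_
  by_cases h3 : D.xi p = ξ
  · have e1 : ({p : D.Idx | D.xi p = ξ}.indicator D.cf) p = D.cf p :=
      Set.indicator_of_mem (s := {p : D.Idx | D.xi p = ξ}) h3 _
    rw [e1]
    by_cases h4 : p.2.out ∈ D.Op
    · have e2 := Set.indicator_of_mem (s := {p : D.Idx | D.xi p = ξ ∧ p.2.out ∈ D.Op}) ⟨h3, h4⟩
        (fun p : D.Idx => χ (rayVal (above L S) ψ p.2.out).toAdd)
      rw [e2, Dat.cf, if_pos h4, hψ]
    · have e2 := Set.indicator_of_notMem (s := {p : D.Idx | D.xi p = ξ ∧ p.2.out ∈ D.Op})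
        (a := p) (fun h => h4 h.2) (fun p : D.Idx => χ (rayVal (above L S) ψ p.2.out).toAdd)
      rw [e2, Dat.cf, if_neg h4]
  · have e1 : ({p : D.Idx | D.xi p = ξ}.indicator D.cf) p = 0 :=
      Set.indicator_of_notMem (s := {p : D.Idx | D.xi p = ξ}) h3 _
    have e2 := Set.indicator_of_notMem (s := {p : D.Idx | D.xi p = ξ ∧ p.2.out ∈ D.Op})
      (a := p) (fun h => h3 h.1) (fun p : D.Idx => χ (rayVal (above L S) ψ p.2.out).toAdd)
    rw [e1, e2]

include h2 hσ hClL he hψ1 hψ2 hq hOp hEA hEB in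
/-- finiteness and size of the fibres -/
theorem card_fib (ξ : Kˣ) : Finite (Fib D ξ) ∧
    Nat.card (Fib D ξ) ≤ ∏ v ∈ supp S ξ, ((ord v ξ).toNat + 1) := by
  obtain ⟨h, h', -⟩ := hasSum_of_reps h2 hσ hClL he χ ψ hψ1 hψ2 (fun p : Fib D ξ => p.1.2.out)
    (good_out D hq hOp hEB) (fun x hx => existsUnique_fib D hq hOp hEA hEB hx)
  exact ⟨h, h'⟩

/-- the bound for the number of divisors -/
lemma prod_supp_le {ξ : Kˣ} (hξ : ∀ v ∉ S, 0 ≤ ord v ξ) :
    ((∏ v ∈ supp S ξ, ((ord v ξ).toNat + 1) : ℕ) : ℝ) ≤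
      ((|Algebra.norm ℚ (ξ : K)| : ℚ) : ℝ) * ∏ v ∈ S, (v.asIdeal.absNorm : ℝ) ^ (-ord v ξ) := by
  classical
  set T : Finset (HeightOneSpectrum (𝓞 K)) := supp S ξ ∪ S with hT
  have h0 : ∀ v ∉ T, ord v ξ = 0 := by
    intro v hv
    rw [hT, Finset.mem_union, not_or, mem_supp, not_and_or, not_not, not_not] at hv
    rcases hv.1 with h | h
    · exact h
    · exact absurd h hv.2
  have hdisj : ∏ v ∈ T, (v.asIdeal.absNorm : ℝ) ^ (ord v ξ) =
      (∏ v ∈ supp S ξ, (v.asIdeal.absNorm : ℝ) ^ (ord v ξ)) *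
        ∏ v ∈ S, (v.asIdeal.absNorm : ℝ) ^ (ord v ξ) := by
    rw [hT, Finset.prod_union]
    rw [Finset.disjoint_left]
    intro v hv
    exact (mem_supp.mp hv).2
  have hS : (∏ v ∈ S, (v.asIdeal.absNorm : ℝ) ^ (ord v ξ)) *
      ∏ v ∈ S, (v.asIdeal.absNorm : ℝ) ^ (-ord v ξ) = 1 := by
    rw [← Finset.prod_mul_distrib]
    refine Finset.prod_eq_one fun v _ => ?_
    have hq := two_le_absNorm v
    rw [← zpow_add₀ (by linarith), add_neg_cancel, zpow_zero]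
  rw [abs_norm_eq_prod h0, hdisj, mul_assoc, hS, mul_one]
  push_cast
  refine Finset.prod_le_prod (fun v _ => by positivity) fun v hv => ?_
  obtain ⟨k, hk⟩ := Int.eq_ofNat_of_zero_le (hξ v (mem_supp.mp hv).2)
  rw [hk, Int.toNat_natCast, zpow_natCast]
  have h1 : ((k : ℝ) + 1) ≤ 2 ^ k := by
    have := Nat.lt_two_pow_self (n := k)
    exact_mod_cast this
  exact h1.trans (pow_le_pow_left₀ (by norm_num) (two_le_absNorm v) k)

include h2 hσ hClL he hψ1 hψ2 hq hOp hEA hEB hψ in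
/-- **The mass bound.** -/
theorem Dat_mass (hχ : ∀ a, ‖χ a‖ = 1) (hVB : ∀ b ∈ D.VB, ∀ v ∈ S, ord v b = 0) (δ : Kˣ) :
    ∃ C : ℝ, 0 ≤ C ∧ ∀ a : Kˣ, a * δ ∈ D.VB → ∀ s : Finset D.Idx, (∀ p ∈ s, D.xi p = a) →
      ∑ p ∈ s, ‖D.cf p‖ ≤ C * ∏ w : InfinitePlace K, (w (a : K)) ^ w.mult := by
  classical
  refine ⟨∏ v ∈ S, (v.asIdeal.absNorm : ℝ) ^ (ord v δ),
    Finset.prod_nonneg fun v _ => by positivity, fun a ha s hs => ?_⟩
  have hord : ∀ v ∈ S, -ord v a = ord v δ := by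
    intro v hv
    have := hVB _ ha v hv
    rw [ord_mul] at this
    omega
  have hprod : ∏ v ∈ S, (v.asIdeal.absNorm : ℝ) ^ (ord v δ) =
      ∏ v ∈ S, (v.asIdeal.absNorm : ℝ) ^ (-ord v a) :=
    Finset.prod_congr rfl (fun v hv => by rw [hord v hv])
  rw [InfinitePlace.prod_eq_abs_norm, hprod, mul_comm]
  by_cases hint : ∀ v ∉ S, 0 ≤ ord v a
  swap
  · have h0 : ∀ p ∈ s, ‖D.cf p‖ = 0 := by
      intro p hp
      rw [Dat.cf, if_neg, norm_zero]
      intro hO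
      apply hint
      intro v hv
      exact (good_out D hq hOp hEB (⟨p, hs p hp, hO⟩ : Fib D a)).ord_nonneg h2 hσ he hv
    rw [Finset.sum_eq_zero h0]
    have : ∀ v ∈ S, (0 : ℝ) ≤ (v.asIdeal.absNorm : ℝ) ^ (-ord v a) := fun v _ => by positivity
    exact mul_nonneg (by positivity) (Finset.prod_nonneg this)
  refine le_trans ?_ (prod_supp_le (S := S) hint)
  obtain ⟨hfin, hcard⟩ := card_fib h2 hσ hClL he χ ψ hψ1 hψ2 D hq hOp hEA hEB a
  refine le_trans ?_ (Nat.cast_le.mpr hcard)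
  have h1 : ∑ p ∈ s, ‖D.cf p‖ ≤ ∑ p ∈ s.filter (fun p => p.2.out ∈ D.Op), (1 : ℝ) := by
    rw [Finset.sum_filter]
    refine Finset.sum_le_sum fun p _ => ?_
    rw [Dat.cf]
    split_ifs
    · rw [hψ, hχ]
    · rw [norm_zero]
  refine h1.trans ?_
  rw [Finset.sum_const, nsmul_eq_mul, mul_one, Nat.cast_le]
  have : Fintype (Fib D a) := Fintype.ofFinite _
  rw [Nat.card_eq_fintype_card, ← Fintype.card_coe]
  refine Fintype.card_le_of_injective
    (fun p : {p // p ∈ s.filter (fun p => p.2.out ∈ D.Op)} =>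
      (⟨p.1, hs p.1 (Finset.mem_filter.mp p.2).1, (Finset.mem_filter.mp p.2).2⟩ : Fib D a)) ?_
  intro p p' h
  exact Subtype.ext (congrArg (fun q : Fib D a => q.1) h)

end Fermat.Agent.LT.Coef
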