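import Fermat.Agent.LT.Coef.Lam

/-!
# Sums over elements of given norm divisor
-/

set_option autoImplicit false
set_option linter.unusedSectionVars false

namespace Fermat.Agent.LT.Coef

open IsDedekindDomain NumberField WithZero
open Fermat.Agent.CFT.SUnits (ord ord_one ord_mul ord_inv ord_pow ord_div ord_eq_zero_iff
  valuation_eq_exp_neg_ord finite_ord_ne_zero div div_apply)
open Fermat.Agent.CFT.Places
open Fermat.Agent.CFT.Global (E mem_E above mem_above normU ClTrivial)
open Fermat.Agent.LT.Psi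

variable {K L : Type*} [Field K] [NumberField K] [Field L] [NumberField L] [Algebra K L]

/-- a place above `v` -/
noncomputable def rep (L : Type*) {K : Type*} [Field K] [NumberField K] [Field L] [NumberField L]
    [Algebra K L] (v : HeightOneSpectrum (𝓞 K)) : HeightOneSpectrum (𝓞 L) :=
  Classical.choose (exists_below_eq L v)

@[simp] lemma rep_under (v : HeightOneSpectrum (𝓞 K)) : (rep L v).under (𝓞 K) = v :=
  Classical.choose_spec (exists_below_eq L v)

open Classical in
/-- the local parameters: `x_v = z + z⁻¹` at split places, `0` at inert places -/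
noncomputable def xv {A : Type*} [AddCommGroup A] (χ : AddChar A ℂ) (σ : L ≃ₐ[K] L)
    (ψ : HeightOneSpectrum (𝓞 L) → A) (v : HeightOneSpectrum (𝓞 K)) : ℂ :=
  if conj σ (rep L v) = rep L v then 0 else χ (ψ (rep L v)) + χ (ψ (conj σ (rep L v)))

/-- `x` is integral outside `S` and its norm generates the divisor of `ξ` outside `S` -/
def Good (S : Finset (HeightOneSpectrum (𝓞 K))) (ξ : Kˣ) (x : Lˣ) : Prop :=
  (∀ w ∉ above L S, 0 ≤ ord w x) ∧ normU L x / ξ ∈ E S

section

variable [IsGalois K L] (h2 : Module.finrank K L = 2) {σ : L ≃ₐ[K] L} (hσ : σ ≠ 1)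
  {S : Finset (HeightOneSpectrum (𝓞 K))} (hClL : ClTrivial (above L S))
  (he : ∀ w : HeightOneSpectrum (𝓞 L), w ∉ above L S →
    (w.under (𝓞 K)).asIdeal.ramificationIdx' w.asIdeal = 1)
  {A : Type*} [AddCommGroup A] (χ : AddChar A ℂ) (ψ : HeightOneSpectrum (𝓞 L) → A)
  (hψ1 : ∀ w ∉ above L S, conj σ w ≠ w → ψ w + ψ (conj σ w) = 0)
  (hψ2 : ∀ w ∉ above L S, conj σ w = w → χ (ψ w) = -1)

include h2 hσ in
open Classical in
lemma xv_under (w : HeightOneSpectrum (𝓞 L)) :
    xv χ σ ψ (w.under (𝓞 K)) = if conj σ w = w then 0 else χ (ψ w) + χ (ψ (conj σ w)) := by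
  rcases eq_or_eq_conj h2 hσ (w := w) (w' := rep L (w.under (𝓞 K))) (by rw [rep_under]) with h | h
  · rw [xv, h]
  · rw [xv, h, conj_conj h2 hσ]
    by_cases hw : conj σ w = w
    · rw [hw, if_pos rfl]
    · rw [if_neg (Ne.symm hw), if_neg hw, add_comm]

include h2 hσ he in
lemma ord_normU_under {w : HeightOneSpectrum (𝓞 L)} (hw : w ∉ above L S) (x : Lˣ) :
    ord (w.under (𝓞 K)) (normU (K := K) L x) = ord w x + ord (conj σ w) x := by
  have h := ord_up w (normU (K := K) L x)
  rw [he w hw, Nat.cast_one, one_mul] at h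
  rw [← h, ord_up_normU h2 hσ]

include h2 hσ he in
lemma Good.ord_add {ξ : Kˣ} {x : Lˣ} (h : Good S ξ x) {w : HeightOneSpectrum (𝓞 L)}
    (hw : w ∉ above L S) : ord w x + ord (conj σ w) x = ord (w.under (𝓞 K)) ξ := by
  have h1 := mem_E.mp h.2 (w.under (𝓞 K)) (fun h => hw ((mem_above L).mpr h))
  rw [ord_div, ord_normU_under h2 hσ he hw] at h1
  omega

include h2 hσ he in
lemma good_iff {ξ : Kˣ} {x : Lˣ} : Good S ξ x ↔ ∀ w ∉ above L S,
    0 ≤ ord w x ∧ ord w x + ord (conj σ w) x = ord (w.under (𝓞 K)) ξ := by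
  constructor
  · intro h w hw
    exact ⟨h.1 w hw, h.ord_add h2 hσ he hw⟩
  · intro h
    refine ⟨fun w hw => (h w hw).1, ?_⟩
    rw [mem_E]
    intro v hv
    have hw : rep L v ∉ above L S := by rwa [mem_above, rep_under]
    have h1 := (h _ hw).2
    have h3 := ord_normU_under h2 hσ he hw x
    rw [rep_under] at h1 h3
    rw [ord_div, h3, h1, sub_self]

/-- the support outside `S` -/
noncomputable def supp (S : Finset (HeightOneSpectrum (𝓞 K))) (ξ : Kˣ) :
    Finset (HeightOneSpectrum (𝓞 K)) := by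
  classical exact (div ξ : HeightOneSpectrum (𝓞 K) →₀ ℤ).support.filter (fun v => v ∉ S)

lemma mem_supp {ξ : Kˣ} {v : HeightOneSpectrum (𝓞 K)} : v ∈ supp S ξ ↔ ord v ξ ≠ 0 ∧ v ∉ S := by
  classical
  rw [supp, Finset.mem_filter, Finsupp.mem_support_iff, div_apply]

open Classical in
/-- possible values of `ord_{rep v}` -/
noncomputable def Av (L : Type*) {K : Type*} [Field K] [NumberField K] [Field L] [NumberField L]
    [Algebra K L] (σ : L ≃ₐ[K] L) (ξ : Kˣ) (v : HeightOneSpectrum (𝓞 K)) : Finset ℕ :=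
  if conj σ (rep L v) = rep L v then
    (Finset.range ((ord v ξ).toNat + 1)).filter (fun k => 2 * k = (ord v ξ).toNat)
  else Finset.range ((ord v ξ).toNat + 1)

/-- the local exponents -/
noncomputable def kap (S : Finset (HeightOneSpectrum (𝓞 K))) (ξ : Kˣ) (x : Lˣ) :
    ∀ v ∈ supp S ξ, ℕ := fun v _ => (ord (rep L v) x).toNat

include h2 hσ he in
open Classical in
lemma kap_mem {ξ : Kˣ} {x : Lˣ} (h : Good S ξ x) :
    kap S ξ x ∈ (supp S ξ).pi (Av L σ ξ) := by
  classical
  rw [Finset.mem_pi]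
  intro v hv
  have hw : rep L v ∉ above L S := by
    rw [mem_above, rep_under]
    exact (mem_supp.mp hv).2
  have hw' : conj σ (rep L v) ∉ above L S := by rwa [conj_mem_above]
  have h1 := h.ord_add h2 hσ he hw
  rw [rep_under] at h1
  have h3 := h.1 _ hw
  have h4 := h.1 _ hw'
  rw [kap, Av]
  split_ifs with hc
  · rw [hc] at h1
    rw [Finset.mem_filter, Finset.mem_range]
    omega
  · rw [Finset.mem_range]
    omega

include h2 hσ he in
/-- the exponents determine the class modulo units -/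
lemma div_mem_E {ξ : Kˣ} {x y : Lˣ} (hx : Good S ξ x) (hy : Good S ξ y)
    (h : kap S ξ x = kap S ξ y) : x / y ∈ E (above L S) := by
  -- equality at all representatives
  have key : ∀ v ∉ S, ord (rep L v) x = ord (rep L v) y ∧
      ord (conj σ (rep L v)) x = ord (conj σ (rep L v)) y := by
    intro v hv
    have hw : rep L v ∉ above L S := by rwa [mem_above, rep_under]
    have hw' : conj σ (rep L v) ∉ above L S := by rwa [conj_mem_above]
    have h1 := hx.ord_add h2 hσ he hw
    have h1' := hy.ord_add h2 hσ he hw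
    rw [rep_under] at h1 h1'
    have h3 := hx.1 _ hw
    have h4 := hx.1 _ hw'
    have h3' := hy.1 _ hw
    have h4' := hy.1 _ hw'
    by_cases h0 : ord v ξ = 0
    · omega
    · have h5 := congrFun (congrFun h v) (mem_supp.mpr ⟨h0, hv⟩)
      rw [kap, kap] at h5
      omega
  rw [mem_E]
  intro w hw
  have hv : w.under (𝓞 K) ∉ S := fun h => hw ((mem_above L).mpr h)
  have h5 := key _ hv
  rw [ord_div]
  rcases eq_or_eq_conj h2 hσ (w := rep L (w.under (𝓞 K))) (w' := w) (by rw [rep_under]) with h | h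
  · rw [← h] at h5
    omega
  · rw [← h] at h5
    omega

include h2 hσ hClL he in
open Classical in
/-- every admissible family of exponents occurs -/
lemma exists_good {ξ : Kˣ} (hξ : ∀ v ∉ S, 0 ≤ ord v ξ) (k : ∀ v ∈ supp S ξ, ℕ)
    (hk : k ∈ (supp S ξ).pi (Av L σ ξ)) : ∃ x : Lˣ, Good S ξ x ∧ kap S ξ x = k := by
  classical
  let D : HeightOneSpectrum (𝓞 L) →₀ ℤ := Finsupp.onFinset (above L (supp S ξ))
    (fun w => if h : w.under (𝓞 K) ∈ supp S ξ then
      (if w = rep L (w.under (𝓞 K)) then (k _ h : ℤ) else ord (w.under (𝓞 K)) ξ - k _ h) else 0)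
    (by
      intro w hw
      rw [mem_above]
      by_contra hcon
      rw [dif_neg hcon] at hw
      exact hw rfl)
  have hD : ∀ w, D w = if h : w.under (𝓞 K) ∈ supp S ξ then
      (if w = rep L (w.under (𝓞 K)) then (k _ h : ℤ) else ord (w.under (𝓞 K)) ξ - k _ h)
        else 0 := fun w => rfl
  obtain ⟨x, hx⟩ := hClL D
  rw [Finset.mem_pi] at hk
  have hkv : ∀ (v : HeightOneSpectrum (𝓞 K)) (hv : v ∈ supp S ξ), (k v hv : ℤ) ≤ ord v ξ ∧
      (conj σ (rep L v) = rep L v → 2 * (k v hv : ℤ) = ord v ξ) := by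
    intro v hv
    have h1 := hk v hv
    have h3 := hξ v (mem_supp.mp hv).2
    rw [Av] at h1
    split_ifs at h1 with hc
    · rw [Finset.mem_filter, Finset.mem_range] at h1
      exact ⟨by omega, fun _ => by omega⟩
    · rw [Finset.mem_range] at h1
      exact ⟨by omega, fun h => absurd h hc⟩
  refine ⟨x, ?_, ?_⟩
  · rw [good_iff h2 hσ he]
    intro w hw
    have hw' : conj σ w ∉ above L S := by rwa [conj_mem_above]
    have hv : w.under (𝓞 K) ∉ S := fun h => hw ((mem_above L).mpr h)
    rw [hx w hw, hx _ hw', hD, hD]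
    by_cases hs : w.under (𝓞 K) ∈ supp S ξ
    · have hs' : (conj σ w).under (𝓞 K) ∈ supp S ξ := by rwa [below_conj]
      rw [dif_pos hs, dif_pos hs']
      have hkw := hkv _ hs
      have ek : k ((conj σ w).under (𝓞 K)) hs' = k (w.under (𝓞 K)) hs := by
        congr 1
        exact below_conj σ w
      rw [ek, below_conj]
      rcases eq_or_eq_conj h2 hσ (w := w) (w' := rep L (w.under (𝓞 K))) (by rw [rep_under])
        with h | h
      · rw [h] at hkw ⊢
        rw [if_pos rfl]
        split_ifs with hc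
        · have := hkw.2 hc
          omega
        · have := hkw.1
          omega
      · rw [h] at hkw ⊢
        rw [if_pos rfl]
        split_ifs with hc
        · have := hkw.2 (by rw [conj_conj h2 hσ]; exact hc)
          omega
        · have := hkw.1
          omega
    · have hs' : (conj σ w).under (𝓞 K) ∉ supp S ξ := by rwa [below_conj]
      rw [dif_neg hs, dif_neg hs']
      rw [mem_supp, not_and_or, not_not, not_not] at hs
      rcases hs with hs | hs
      · rw [hs]
        omega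
      · exact absurd hs hv
  · funext v hv
    have hw : rep L v ∉ above L S := by
      rw [mem_above, rep_under]
      exact (mem_supp.mp hv).2
    have hs : (rep L v).under (𝓞 K) ∈ supp S ξ := by rwa [rep_under]
    rw [kap, hx _ hw, hD, dif_pos hs, if_pos (by rw [rep_under])]
    have ek : k ((rep L v).under (𝓞 K)) hs = k v hv := by
      congr 1
      exact rep_under v
    rw [ek, Int.toNat_natCast]

open Classical in
/-- the local factor -/
noncomputable def loc (χ : AddChar A ℂ) (σ : L ≃ₐ[K] L) (ψ : HeightOneSpectrum (𝓞 L) → A)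
    (v : HeightOneSpectrum (𝓞 K)) (n : ℤ) (k : ℕ) : ℂ :=
  if conj σ (rep L v) = rep L v then (-1) ^ k else χ (ψ (rep L v)) ^ (2 * (k : ℤ) - n)

lemma map_sum_eq_prod {ι A : Type*} [AddCommGroup A] (χ : AddChar A ℂ) (T : Finset ι) (f : ι → A) :
    χ (∑ i ∈ T, f i) = ∏ i ∈ T, χ (f i) := by
  classical
  induction T using Finset.induction_on with
  | empty => simp
  | insert i T hi ih => rw [Finset.sum_insert hi, Finset.prod_insert hi, AddChar.map_add_eq_mul, ih]

lemma char_ne_zero {A : Type*} [AddCommGroup A] (χ : AddChar A ℂ) (a : A) : χ a ≠ 0 := by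
  intro h
  have h1 : χ (a + -a) = 1 := by rw [add_neg_cancel, AddChar.map_zero_eq_one]
  rw [AddChar.map_add_eq_mul, h, zero_mul] at h1
  exact zero_ne_one h1

include h2 hσ he hψ1 hψ2 in
/-- the value of the character in terms of the exponents -/
lemma value {ξ : Kˣ} {x : Lˣ} (h : Good S ξ x) :
    χ (rayVal (above L S) ψ x).toAdd =
      ∏ v ∈ (supp S ξ).attach, loc χ σ ψ v.1 (ord v.1 ξ) (kap S ξ x v.1 v.2) := by
  classical
  have hT : ∀ w ∉ above L (supp S ξ), w ∉ above L S → ord w x • ψ w = 0 := by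
    intro w hw hwS
    have h1 := h.ord_add h2 hσ he hwS
    have h3 := h.1 w hwS
    have h4 := h.1 (conj σ w) (by rwa [conj_mem_above])
    have hv : w.under (𝓞 K) ∉ S := fun h => hwS ((mem_above L).mpr h)
    rw [mem_above, mem_supp, not_and_or, not_not, not_not] at hw
    rcases hw with hw | hw
    · have : ord w x = 0 := by omega
      rw [this, zero_smul]
    · exact absurd hw hv
  rw [toAdd_rayVal_eq_sum (above L S) (above L (supp S ξ)) ψ x hT,
    ← Finset.sum_fiberwise_of_maps_to (s := above L (supp S ξ)) (t := supp S ξ)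
      (g := fun w => w.under (𝓞 K)) (fun w hw => (mem_above L).mp hw),
    map_sum_eq_prod, ← Finset.prod_attach]
  refine Finset.prod_congr rfl fun v _ => ?_
  obtain ⟨v, hv⟩ := v
  have hw : rep L v ∉ above L S := by
    rw [mem_above, rep_under]
    exact (mem_supp.mp hv).2
  have hw' : conj σ (rep L v) ∉ above L S := by rwa [conj_mem_above]
  have h1 := h.ord_add h2 hσ he hw
  rw [rep_under] at h1
  have h3 := h.1 _ hw
  have h4 := h.1 _ hw'
  change χ (∑ w ∈ (above L (supp S ξ)).filter (fun w => w.under (𝓞 K) = v), _) =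
    loc χ σ ψ v (ord v ξ) (kap S ξ x v hv)
  rw [kap, loc]
  obtain ⟨m, hm⟩ := Int.eq_ofNat_of_zero_le h3
  by_cases hc : conj σ (rep L v) = rep L v
  · have hfil : (above L (supp S ξ)).filter (fun w => w.under (𝓞 K) = v) = {rep L v} := by
      ext w
      rw [Finset.mem_filter, mem_above, Finset.mem_singleton]
      constructor
      · rintro ⟨-, h5⟩
        rcases eq_or_eq_conj h2 hσ (w := rep L v) (w' := w) (by rw [rep_under, h5]) with h | h
        · exact h
        · rw [h, hc]
      · rintro rfl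
        rw [rep_under]
        exact ⟨hv, rfl⟩
    rw [hfil, Finset.sum_singleton, if_neg hw, if_pos hc, hm, natCast_zsmul,
      AddChar.map_nsmul_eq_pow, hψ2 _ hw hc, Int.toNat_natCast]
  · have hfil : (above L (supp S ξ)).filter (fun w => w.under (𝓞 K) = v) =
        {rep L v, conj σ (rep L v)} := by
      ext w
      rw [Finset.mem_filter, mem_above, Finset.mem_insert, Finset.mem_singleton]
      constructor
      · rintro ⟨-, h5⟩
        exact eq_or_eq_conj h2 hσ (w := rep L v) (w' := w) (by rw [rep_under, h5])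
      · rintro (rfl | rfl)
        · rw [rep_under]
          exact ⟨hv, rfl⟩
        · rw [below_conj, rep_under]
          exact ⟨hv, rfl⟩
    rw [hfil, Finset.sum_pair (Ne.symm hc), if_neg hw, if_neg hw', if_neg hc]
    have h5 : ψ (conj σ (rep L v)) = - ψ (rep L v) := by
      rw [eq_neg_iff_add_eq_zero, add_comm]
      exact hψ1 _ hw hc
    have h6 : ord (conj σ (rep L v)) x = ord v ξ - ord (rep L v) x := by omega
    rw [h5, h6, smul_neg, ← sub_eq_add_neg, ← sub_smul, AddChar.map_zsmul_eq_zpow, hm,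
      Int.toNat_natCast]
    congr 1
    ring

include h2 hσ hψ1 in
/-- the local sums -/
lemma local_sum {ξ : Kˣ} {v : HeightOneSpectrum (𝓞 K)} (hv : v ∉ S) (hξ : 0 ≤ ord v ξ) :
    ∑ k ∈ Av L σ ξ v, loc χ σ ψ v (ord v ξ) k = chZ (xv χ σ ψ v) (ord v ξ) := by
  classical
  have hw : rep L v ∉ above L S := by rwa [mem_above, rep_under]
  obtain ⟨n, hn⟩ := Int.eq_ofNat_of_zero_le hξ
  rw [Av, xv, hn, Int.toNat_natCast, chZ_natCast]
  by_cases hc : conj σ (rep L v) = rep L v
  · rw [if_pos hc, if_pos hc, ← sum_inert]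
    refine Finset.sum_congr rfl fun k _ => ?_
    rw [loc, if_pos hc]
  · have h5 : ψ (conj σ (rep L v)) = - ψ (rep L v) := by
      rw [eq_neg_iff_add_eq_zero, add_comm]
      exact hψ1 _ hw hc
    rw [if_neg hc, if_neg hc, h5, AddChar.map_neg_eq_inv, ← sum_split (char_ne_zero χ _)]
    refine Finset.sum_congr rfl fun k _ => ?_
    rw [loc, if_neg hc]

lemma card_Av_le (σ : L ≃ₐ[K] L) (ξ : Kˣ) (v : HeightOneSpectrum (𝓞 K)) :
    (Av L σ ξ v).card ≤ (ord v ξ).toNat + 1 := by
  classical
  rw [Av]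
  split_ifs
  · exact (Finset.card_filter_le _ _).trans (by rw [Finset.card_range])
  · rw [Finset.card_range]

include h2 hσ he in
lemma Good.ord_nonneg {ξ : Kˣ} {x : Lˣ} (h : Good S ξ x) {v : HeightOneSpectrum (𝓞 K)}
    (hv : v ∉ S) : 0 ≤ ord v ξ := by
  have hw : rep L v ∉ above L S := by rwa [mem_above, rep_under]
  have hw' : conj σ (rep L v) ∉ above L S := by rwa [conj_mem_above]
  have h1 := h.ord_add h2 hσ he hw
  rw [rep_under] at h1
  have h3 := h.1 _ hw
  have h4 := h.1 _ hw'
  omega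

lemma kap_congr {ξ : Kˣ} {x y : Lˣ} (h : x / y ∈ E (above L S)) : kap S ξ x = kap S ξ y := by
  funext v hv
  have hw : rep L v ∉ above L S := by
    rw [mem_above, rep_under]
    exact (mem_supp.mp hv).2
  have := mem_E.mp h _ hw
  rw [ord_div] at this
  rw [kap, kap]
  congr 1
  omega

include h2 hσ hClL he hψ1 hψ2 in
/-- **Coefficients.** `r : ι → Lˣ` is a complete system of representatives, modulo the units of
`O_L[1/S]`, of the integral elements whose norm generates the ideal `ξ`. -/
theorem hasSum_of_reps {ι : Type*} (r : ι → Lˣ) {ξ : Kˣ} (hr : ∀ i, Good S ξ (r i))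
    (hr' : ∀ x : Lˣ, Good S ξ x → ∃! i, x / r i ∈ E (above L S)) :
    Finite ι ∧ Nat.card ι ≤ ∏ v ∈ supp S ξ, ((ord v ξ).toNat + 1) ∧
      HasSum (fun i => χ (rayVal (above L S) ψ (r i)).toAdd) (lam S (xv χ σ ψ) ξ) := by
  classical
  by_cases hξ : ∀ v ∉ S, 0 ≤ ord v ξ
  swap
  · push Not at hξ
    obtain ⟨v, hv, hlt⟩ := hξ
    have : IsEmpty ι := ⟨fun i => absurd ((hr i).ord_nonneg h2 hσ he hv) (by omega)⟩
    refine ⟨inferInstance, by rw [Nat.card_of_isEmpty]; exact Nat.zero_le _, ?_⟩
    rw [lam_eq_zero hv hlt]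
    exact hasSum_empty
  let P := {k // k ∈ (supp S ξ).pi (Av L σ ξ)}
  let f : ι → P := fun i => ⟨kap S ξ (r i), kap_mem h2 hσ he (hr i)⟩
  have hf : Function.Bijective f := by
    constructor
    · intro i j hij
      have h1 : kap S ξ (r i) = kap S ξ (r j) := congrArg Subtype.val hij
      obtain ⟨k, hk, hk'⟩ := hr' (r i) (hr i)
      rw [hk' i (by change r i / r i ∈ _; rw [div_self']; exact one_mem _),
        hk' j (div_mem_E h2 hσ he (hr i) (hr j) h1)]
    · rintro ⟨k, hk⟩
      obtain ⟨x, hx, hxk⟩ := exists_good h2 hσ hClL he hξ k hk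
      obtain ⟨i, hi, -⟩ := hr' x hx
      refine ⟨i, Subtype.ext ?_⟩
      change kap S ξ (r i) = k
      rw [← hxk, kap_congr hi]
  let e : ι ≃ P := Equiv.ofBijective f hf
  have hfin : Finite ι := Finite.of_equiv P e.symm
  refine ⟨hfin, ?_, ?_⟩
  · rw [Nat.card_congr e, Nat.card_eq_fintype_card, Fintype.card_coe, Finset.card_pi]
    exact Finset.prod_le_prod' fun v _ => card_Av_le σ ξ v
  · have h1 : HasSum (fun k : P => ∏ v ∈ (supp S ξ).attach,
        loc χ σ ψ v.1 (ord v.1 ξ) (k.1 v.1 v.2)) (lam S (xv χ σ ψ) ξ) := by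
      have h4 := hasSum_fintype (fun k : P => ∏ v ∈ (supp S ξ).attach,
        loc χ σ ψ v.1 (ord v.1 ξ) (k.1 v.1 v.2))
      have h5 : ∑ k : P, ∏ v ∈ (supp S ξ).attach, loc χ σ ψ v.1 (ord v.1 ξ) (k.1 v.1 v.2) =
          lam S (xv χ σ ψ) ξ := by
        rw [Finset.sum_coe_sort ((supp S ξ).pi (Av L σ ξ))
          (fun k => ∏ v ∈ (supp S ξ).attach, loc χ σ ψ v.1 (ord v.1 ξ) (k v.1 v.2)),
          ← Finset.prod_sum (supp S ξ) (Av L σ ξ) (fun v k => loc χ σ ψ v (ord v ξ) k),
          lam_eq_prod S (supp S ξ)]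
        · refine Finset.prod_congr rfl fun v hv => ?_
          rw [if_neg (mem_supp.mp hv).2, local_sum h2 hσ χ ψ hψ1 (mem_supp.mp hv).2
            (hξ v (mem_supp.mp hv).2)]
        · intro v hv hvS
          by_contra hcon
          exact hv (mem_supp.mpr ⟨hcon, hvS⟩)
      rwa [h5] at h4
    have h6 := (Equiv.hasSum_iff e).mpr h1
    have h7 : (fun i => χ (rayVal (above L S) ψ (r i)).toAdd) =
        (fun k : P => ∏ v ∈ (supp S ξ).attach,
          loc χ σ ψ v.1 (ord v.1 ξ) (k.1 v.1 v.2)) ∘ e := by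
      funext i
      exact value h2 hσ he χ ψ hψ1 hψ2 (hr i)
    rw [h7]
    exact h6

end

end Fermat.Agent.LT.Coef
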